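import Fermat.Agent.Switch.ThreeTorsion

/-!
# The Hesse family: forms, covariants along a line, universal point of order 3

`hesseF`, `hesseH`, `hesseT` satisfy `H³ - T² = 64 f³`; `(9 u², √432 (u³ - v³))` has order 3 on
`y² = x³ - 27 H x - 54 T`.  On the line through `(u, v)` in the direction `(f_v, -f_u)` they
restrict to `covQuartic`, `covFour`, `covSix`.
-/

set_option autoImplicit false

namespace FermatAgent.Switch.Hesse

section Ring

variable {R : Type*} [CommRing R] (u v a b l m : R)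

/-- The form of degree 4. -/
def hesseF : R := v * (u ^ 3 - v ^ 3)

/-- The covariant of degree 4. -/
def hesseH : R := u * (u ^ 3 + 8 * v ^ 3)

/-- The covariant of degree 6. -/
def hesseT : R := u ^ 6 - 20 * u ^ 3 * v ^ 3 - 8 * v ^ 6

/-- `∂f/∂u`. -/
def hesseFu : R := 3 * u ^ 2 * v

/-- `∂f/∂v`. -/
def hesseFv : R := u ^ 3 - 4 * v ^ 3

/-- The point `l • w + m • w'`, first coordinate. -/
def lineU : R := l * u + m * hesseFv u v

/-- The point `l • w + m • w'`, second coordinate. -/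
def lineV : R := l * v - m * hesseFu u v

/-- `f` along the line. -/
def covQuartic : R :=
  l ^ 4 - 6 * a * l ^ 2 * m ^ 2 - 8 * b * l * m ^ 3 - 3 * a ^ 2 * m ^ 4

/-- `H` along the line. -/
def covFour : R :=
  a * l ^ 4 + 4 * b * l ^ 3 * m + 6 * a ^ 2 * l ^ 2 * m ^ 2 + 4 * a * b * l * m ^ 3
    - (3 * a ^ 3 - 4 * b ^ 2) * m ^ 4

/-- `T` along the line. -/
def covSix : R :=
  b * l ^ 6 + 6 * a ^ 2 * l ^ 5 * m + 15 * a * b * l ^ 4 * m ^ 2 + 20 * b ^ 2 * l ^ 3 * m ^ 3
    + 15 * a ^ 2 * b * l ^ 2 * m ^ 4 + (18 * a ^ 4 - 12 * a * b ^ 2) * l * m ^ 5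
    + (9 * a ^ 3 * b - 8 * b ^ 3) * m ^ 6

theorem hesse_syzygy : hesseH u v ^ 3 - hesseT u v ^ 2 = 64 * hesseF u v ^ 3 := by
  simp only [hesseH, hesseT, hesseF]; ring

theorem hesse_euler : u * hesseFu u v + v * hesseFv u v = 4 * hesseF u v := by
  simp only [hesseF, hesseFu, hesseFv]; ring

theorem hesseH_line : hesseH (lineU u v l m) (lineV u v l m) =
    covFour (hesseH u v) (hesseT u v) l m := by
  simp only [hesseH, hesseT, hesseFu, hesseFv, lineU, lineV, covFour]; ring

theorem hesseT_line : hesseT (lineU u v l m) (lineV u v l m) =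
    covSix (hesseH u v) (hesseT u v) l m := by
  simp only [hesseH, hesseT, hesseFu, hesseFv, lineU, lineV, covSix]; ring

/-- The syzygy along the line. -/
theorem cov_identity :
    covFour a b l m ^ 3 - covSix a b l m ^ 2 = (a ^ 3 - b ^ 2) * covQuartic a b l m ^ 3 := by
  simp only [covFour, covSix, covQuartic]; ring

lemma covFour_one_zero : covFour a b 1 0 = a := by simp [covFour]

lemma covSix_one_zero : covSix a b 1 0 = b := by simp [covSix]

lemma covQuartic_one_zero : covQuartic a b 1 0 = 1 := by simp [covQuartic]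

variable {S : Type*} [CommRing S] (g : R →+* S)

lemma map_covFour : g (covFour a b l m) = covFour (g a) (g b) (g l) (g m) := by
  simp [covFour, map_ofNat]

lemma map_covSix : g (covSix a b l m) = covSix (g a) (g b) (g l) (g m) := by
  simp [covSix, map_ofNat]

lemma map_covQuartic : g (covQuartic a b l m) = covQuartic (g a) (g b) (g l) (g m) := by
  simp [covQuartic, map_ofNat]

lemma map_hesseH : g (hesseH u v) = hesseH (g u) (g v) := by
  simp [hesseH, map_ofNat]

lemma map_hesseT : g (hesseT u v) = hesseT (g u) (g v) := by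
  simp [hesseT, map_ofNat]

lemma map_lineU : g (lineU u v l m) = lineU (g u) (g v) (g l) (g m) := by
  simp [lineU, hesseFv, map_ofNat]

lemma map_lineV : g (lineV u v l m) = lineV (g u) (g v) (g l) (g m) := by
  simp [lineV, hesseFu, map_ofNat]

end Ring

section Field

variable {K : Type*} [Field K]

lemma hesseH_smul (c u v : K) : hesseH (c * u) (c * v) = c ^ 4 * hesseH u v := by
  simp only [hesseH]; ring

lemma hesseT_smul (c u v : K) : hesseT (c * u) (c * v) = c ^ 6 * hesseT u v := by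
  simp only [hesseT]; ring

lemma eq_zero_of_hesseF_hesseH (h3 : (3 : K) ≠ 0) {u v : K} (hF : hesseF u v = 0)
    (hH : hesseH u v = 0) : u = 0 ∧ v = 0 := by
  simp only [hesseF, hesseH, mul_eq_zero] at hF hH
  rcases hF with hv | hu
  · refine ⟨?_, hv⟩
    rcases hH with h | h
    · exact h
    · exact eq_zero_of_pow_eq_zero (n := 3) (by rw [hv] at h; linear_combination h)
  · have hv : v = 0 := by
      rcases hH with h | h
      · exact eq_zero_of_pow_eq_zero (n := 3) (by rw [h] at hu; linear_combination -hu)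
      · refine eq_zero_of_pow_eq_zero (n := 3) ((mul_eq_zero.1 ?_).resolve_left
          (mul_ne_zero h3 h3))
        linear_combination h - hu
    exact ⟨eq_zero_of_pow_eq_zero (n := 3) (by rw [hv] at hu; linear_combination hu), hv⟩

lemma eq_zero_of_line_eq_zero (h4 : (4 : K) ≠ 0) {u v l m : K} (hf : hesseF u v ≠ 0)
    (hU : lineU u v l m = 0) (hV : lineV u v l m = 0) : l = 0 ∧ m = 0 := by
  simp only [lineU, lineV] at hU hV
  have he := hesse_euler u v
  have hm : m * (4 * hesseF u v) = 0 := by rw [← he]; linear_combination v * hU - u * hV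
  have hl : l * (4 * hesseF u v) = 0 := by
    rw [← he]; linear_combination hesseFu u v * hU + hesseFv u v * hV
  simp only [mul_eq_zero, h4, hf, or_self, or_false] at hl hm
  exact ⟨hl, hm⟩

/-- Every pair with `a³ ≠ b²` comes from a parameter. -/
theorem exists_base [IsAlgClosed K] (h6 : (6 : K) ≠ 0) {a b : K} (h : a ^ 3 - b ^ 2 ≠ 0) :
    ∃ u v : K, hesseH u v = a ∧ hesseT u v = b ∧ hesseF u v ≠ 0 := by
  have h2 : (2 : K) ≠ 0 := fun e => h6 (by linear_combination (3 : K) * e)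
  have h3 : (3 : K) ≠ 0 := fun e => h6 (by linear_combination (2 : K) * e)
  have h64 : (64 : K) ≠ 0 := by
    rw [show (64 : K) = 2 ^ 6 by norm_num]; exact pow_ne_zero _ h2
  set j : K := a ^ 3 / (a ^ 3 - b ^ 2)
  let P : Polynomial K := (hesseH (Polynomial.X : Polynomial K) 1) ^ 3
    - Polynomial.C (64 * j) * (hesseF (Polynomial.X : Polynomial K) 1) ^ 3
  have hdeg : P.natDegree = 12 := by
    simp only [P, hesseH, hesseF]
    compute_degree!
  obtain ⟨τ, hτ⟩ := IsAlgClosed.exists_root P (by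
    intro e; rw [Polynomial.natDegree_eq_of_degree_eq_some e] at hdeg; simp at hdeg)
  have hτ' : hesseH τ 1 ^ 3 = 64 * j * hesseF τ 1 ^ 3 := by
    rw [← sub_eq_zero, ← hτ.eq_zero]; simp [P, hesseH, hesseF]
  set H := hesseH τ 1 with hH
  set T := hesseT τ 1 with hT
  set f := hesseF τ 1 with hF
  have hsyz : H ^ 3 - T ^ 2 = 64 * f ^ 3 := hesse_syzygy τ 1
  have hf : f ≠ 0 := fun e => one_ne_zero (eq_zero_of_hesseF_hesseH h3 e
    (eq_zero_of_pow_eq_zero (n := 3) (by rw [hτ', e]; ring))).2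
  have hjd : j * (a ^ 3 - b ^ 2) = a ^ 3 := div_mul_cancel₀ _ h
  have hH3 : H ^ 3 * (a ^ 3 - b ^ 2) = a ^ 3 * (64 * f ^ 3) := by
    linear_combination (a ^ 3 - b ^ 2) * hτ' + 64 * f ^ 3 * hjd
  have hT2 : T ^ 2 * (a ^ 3 - b ^ 2) = b ^ 2 * (64 * f ^ 3) := by
    linear_combination hH3 - (a ^ 3 - b ^ 2) * hsyz
  have hf3 : 64 * f ^ 3 ≠ 0 := mul_ne_zero h64 (pow_ne_zero 3 hf)
  obtain ⟨r, hr2, hr3⟩ : ∃ r : K, r ^ 2 * H = a ∧ r ^ 3 * T = b := by
    rcases eq_or_ne T 0 with hT0 | hT0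
    · have hb : b = 0 := by
        have : b ^ 2 * (64 * f ^ 3) = 0 := by rw [← hT2, hT0]; ring
        simpa using (mul_eq_zero.1 this).resolve_right hf3
      have hH0 : H ≠ 0 := fun e => hf3 (by rw [← hsyz, e, hT0]; ring)
      obtain ⟨r, hr⟩ := IsAlgClosed.exists_pow_nat_eq (a / H) (n := 2) two_pos
      exact ⟨r, by rw [hr, div_mul_cancel₀ _ hH0], by rw [hT0, hb, mul_zero]⟩
    rcases eq_or_ne H 0 with hH0 | hH0
    · have ha : a = 0 := by
        have : a ^ 3 * (64 * f ^ 3) = 0 := by rw [← hH3, hH0]; ring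
        simpa using (mul_eq_zero.1 this).resolve_right hf3
      obtain ⟨r, hr⟩ := IsAlgClosed.exists_pow_nat_eq (b / T) (n := 3) three_pos
      exact ⟨r, by rw [hH0, ha, mul_zero], by rw [hr, div_mul_cancel₀ _ hT0]⟩
    obtain ⟨r, hr⟩ := IsAlgClosed.exists_pow_nat_eq (a / H) (n := 2) two_pos
    have hra : r ^ 2 * H = a := by rw [hr, div_mul_cancel₀ _ hH0]
    have hsq : (r ^ 3 * T) ^ 2 = b ^ 2 := by
      refine mul_right_cancel₀ (mul_ne_zero (pow_ne_zero 3 hH0) h) ?_
      linear_combination (r ^ 6 * H ^ 3) * hT2 - b ^ 2 * hH3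
        + (b ^ 2 * (64 * f ^ 3)) * ((r ^ 2 * H) ^ 2 + r ^ 2 * H * a + a ^ 2) * hra
    rcases eq_or_eq_neg_of_sq_eq_sq _ _ hsq with e | e
    · exact ⟨r, hra, e⟩
    · exact ⟨-r, by rw [neg_sq]; exact hra, by linear_combination -e⟩
  obtain ⟨s, hs⟩ := IsAlgClosed.exists_pow_nat_eq r (n := 2) two_pos
  have eH : hesseH (s * τ) (s * 1) = a := by
    rw [hesseH_smul, ← hH, show s ^ 4 = (s ^ 2) ^ 2 by ring, hs, hr2]
  have eT : hesseT (s * τ) (s * 1) = b := by
    rw [hesseT_smul, ← hT, show s ^ 6 = (s ^ 2) ^ 3 by ring, hs, hr3]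
  refine ⟨s * τ, s * 1, eH, eT, fun e => h ?_⟩
  rw [← eH, ← eT, hesse_syzygy, e]
  ring

end Field

end FermatAgent.Switch.Hesse
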