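import Fermat.Agent.Switch.Congruence
import Fermat.Agent.Switch.Hesse.Forms

/-!
# Congruence of traces of Frobenius mod 3 along the Hesse line
-/

set_option autoImplicit false

namespace FermatAgent.Switch.Hesse

open WeierstrassCurve Polynomial
open scoped WeierstrassCurve.Affine

variable {F : Type*} [Field F] [Fintype F]

local notation "q" => Fintype.card F

/-- **Congruence**: the curves at the parameters `(1, 0)` and `(l, m)` have traces congruent
mod 3. -/
theorem trace_congr (h6 : (6 : F) ≠ 0) {a b l m C₄ C₆ : F} (hab : a ^ 3 - b ^ 2 ≠ 0)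
    (hC₄ : C₄ = covFour a b l m) (hC₆ : C₆ = covSix a b l m) (hC : C₄ ^ 3 - C₆ ^ 2 ≠ 0) :
    (3 : ℤ) ∣ (c46Curve C₄ C₆).traceOfFrobenius - (c46Curve a b).traceOfFrobenius := by
  classical
  set Ω := AlgebraicClosure F
  set j := algebraMap F Ω
  have h2F : (2 : F) ≠ 0 := fun e => h6 (by linear_combination (3 : F) * e)
  have h3F : (3 : F) ≠ 0 := fun e => h6 (by linear_combination (2 : F) * e)
  have h6Ω : (6 : Ω) ≠ 0 := by
    rw [← map_ofNat j 6]; exact (_root_.map_ne_zero j).2 h6
  have hdisc : ∀ {x y : F}, x ^ 3 - y ^ 2 ≠ 0 → (c46Curve x y).Δ ≠ 0 := fun hxy => by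
    rw [c46Curve_Δ, show (6 : F) ^ 6 * 27 = 2 ^ 6 * 3 ^ 9 by norm_num]
    exact mul_ne_zero (mul_ne_zero (pow_ne_zero _ h2F) (pow_ne_zero _ h3F)) hxy
  obtain ⟨u, v, hH, hT, -⟩ := exists_base (a := j a) (b := j b) h6Ω
    (by rw [← map_pow, ← map_pow, ← map_sub]; exact (_root_.map_ne_zero j).2 hab)
  obtain ⟨σ, hσ⟩ := IsAlgClosed.exists_pow_nat_eq (432 : Ω) (n := 2) two_pos
  set L : (Polynomial Ω) := 1 + X * C (j l - 1)
  set M : (Polynomial Ω) := X * C (j m)
  set u' : (Polynomial Ω) := lineU (C u) (C v) L M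
  set v' : (Polynomial Ω) := lineV (C u) (C v) L M
  set ι := algebraMap (Polynomial Ω) (RatFunc Ω)
  set c : Ω →+* RatFunc Ω := ι.comp C
  have hHl : hesseH (ι u') (ι v') = covFour (c (j a)) (c (j b)) (ι L) (ι M) := by
    rw [map_lineU, map_lineV, show ι (C u) = c u from rfl, show ι (C v) = c v from rfl,
      hesseH_line, ← hH, ← hT, map_hesseH, map_hesseT]
  have hTl : hesseT (ι u') (ι v') = covSix (c (j a)) (c (j b)) (ι L) (ι M) := by
    rw [map_lineU, map_lineV, show ι (C u) = c u from rfl, show ι (C v) = c v from rfl,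
      hesseT_line, ← hH, ← hT, map_hesseH, map_hesseT]
  set E : WeierstrassCurve.Affine (RatFunc Ω) :=
    (c46Curve (hesseH (ι u') (ι v')) (hesseT (ι u') (ι v'))).toAffine with hE
  set Φ := coeffFrob (F := F) Ω
  have hΦc : ∀ x : F, Φ (c (j x)) = c (j x) := fun x => by
    show coeffFrob (F := F) Ω (ι (C (j x))) = _
    rw [coeffFrob_algebraMap, Polynomial.map_C]
    show ι (C (FiniteField.frobeniusAlgHom F Ω (j x))) = _
    rw [AlgHom.commutes]
    rfl
  have hΦX : Φ (ι X) = ι X := by rw [coeffFrob_algebraMap, Polynomial.map_X]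
  have hL : ι L = 1 + ι X * (c (j l) - 1) := by simp [L, c]
  have hM : ι M = ι X * c (j m) := by simp [M, c]; ring
  have hΦL : Φ (ι L) = ι L := by rw [hL, map_add, map_mul, map_sub, map_one, hΦX, hΦc]
  have hΦM : Φ (ι M) = ι M := by rw [hM, map_mul, hΦX, hΦc]
  have hfix : WeierstrassCurve.map E Φ = E := by
    show (c46Curve _ _).map Φ = c46Curve _ _
    rw [c46Curve_map, hHl, hTl, map_covFour, map_covSix, hΦc, hΦc, hΦL, hΦM]
  have hp : ∀ (s : Ω) (p : (Polynomial Ω)), ι p ∈ placeAt s := fun s => algebraMap_mem_placeAt s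
  have hint : ∀ s : Ω, Local.IntCoeffs (placeAt s) E := fun s => by
    constructor
    · exact zero_mem _
    · exact zero_mem _
    · exact zero_mem _
    · show (-27 : RatFunc Ω) * hesseH (ι u') (ι v') ∈ _
      rw [← map_hesseH _ _ ι, ← map_ofNat ι 27, ← map_neg ι, ← map_mul ι]
      exact hp s _
    · show (-54 : RatFunc Ω) * hesseT (ι u') (ι v') ∈ _
      rw [← map_hesseT _ _ ι, ← map_ofNat ι 54, ← map_neg ι, ← map_mul ι]
      exact hp s _
  have hred : ∀ (s : Ω) (x y : F), hesseH (u'.eval s) (v'.eval s) = j x →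
      hesseT (u'.eval s) (v'.eval s) = j y →
      (Local.intModel (hint s)).map (evalAt s) = (c46Curve x y).map j := by
    intro s x y hx hy
    have he : ∀ (z : RatFunc Ω) (hz : z ∈ placeAt s) (p : (Polynomial Ω)), z = ι p →
        evalAt s ⟨z, hz⟩ = p.eval s := by
      rintro _ hz p rfl; exact evalAt_algebraMap s p
    rw [c46Curve_map]
    ext
    · exact (he 0 _ 0 (map_zero ι).symm).trans eval_zero
    · exact (he 0 _ 0 (map_zero ι).symm).trans eval_zero
    · exact (he 0 _ 0 (map_zero ι).symm).trans eval_zero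
    · refine (he _ _ (-27 * hesseH u' v') ?_).trans ?_
      · show (-27 : RatFunc Ω) * hesseH (ι u') (ι v') = _
        simp [map_hesseH, map_ofNat]
      · show _ = -27 * j x
        rw [← hx, ← coe_evalRingHom, map_mul, map_hesseH, map_neg, map_ofNat]
    · refine (he _ _ (-54 * hesseT u' v') ?_).trans ?_
      · show (-54 : RatFunc Ω) * hesseT (ι u') (ι v') = _
        simp [map_hesseT, map_ofNat]
      · show _ = -54 * j y
        rw [← hy, ← coe_evalRingHom, map_mul, map_hesseT, map_neg, map_ofNat]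
  have heU : ∀ s : Ω, u'.eval s = lineU u v (1 + s * (j l - 1)) (s * j m) := fun s => by
    rw [← coe_evalRingHom, map_lineU]
    simp only [L, M, coe_evalRingHom, eval_add, eval_one, eval_mul, eval_X, eval_C]
  have heV : ∀ s : Ω, v'.eval s = lineV u v (1 + s * (j l - 1)) (s * j m) := fun s => by
    rw [← coe_evalRingHom, map_lineV]
    simp only [L, M, coe_evalRingHom, eval_add, eval_one, eval_mul, eval_X, eval_C]
  have hred0 : (Local.intModel (hint 0)).map (evalAt 0) = (c46Curve a b).map j :=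
    hred 0 a b (by rw [heU, heV]; simp [lineU, lineV, hH]) (by rw [heU, heV]; simp [lineU, lineV, hT])
  have hred1 : (Local.intModel (hint 1)).map (evalAt 1) = (c46Curve C₄ C₆).map j := by
    refine hred 1 C₄ C₆ ?_ ?_
    · rw [heU, heV, show (1 : Ω) + 1 * (j l - 1) = j l by ring, one_mul, hesseH_line, hH, hT,
        ← map_covFour, ← hC₄]
    · rw [heU, heV, show (1 : Ω) + 1 * (j l - 1) = j l by ring, one_mul, hesseT_line, hH, hT,
        ← map_covSix, ← hC₆]
  have hΔE : WeierstrassCurve.Δ E ≠ 0 := by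
    intro e
    have hD : (((Local.intModel (hint 0)).Δ : placeAt (0 : Ω)) : RatFunc Ω) = WeierstrassCurve.Δ E :=
      ((Local.intModel (hint 0)).map_Δ (placeAt (0 : Ω)).subtype).symm
    rw [e, ← ZeroMemClass.coe_zero (placeAt (0 : Ω))] at hD
    have h' := congrArg (evalAt (0 : Ω)) (Subtype.ext hD :
      (Local.intModel (hint 0)).Δ = 0)
    rw [← WeierstrassCurve.map_Δ, hred0, WeierstrassCurve.map_Δ, map_zero, _root_.map_eq_zero] at h'
    exact hdisc hab h'
  have h2K : (2 : RatFunc Ω) ≠ 0 := by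
    have := (_root_.map_ne_zero (c.comp j)).2 h2F
    simpa [map_ofNat] using this
  have h3Ω : ((3 : ℕ) : Ω) ≠ 0 := by
    have := (_root_.map_ne_zero j).2 h3F
    simpa [map_ofNat] using this
  set x₀ : RatFunc Ω := 9 * ι u' ^ 2 with hx₀
  set y₀ : RatFunc Ω := c σ * (ι u' ^ 3 - ι v' ^ 3) with hy₀
  have hσ' : c σ ^ 2 = 432 := by rw [← map_pow, hσ, map_ofNat]
  have heq : E.Equation x₀ y₀ := by
    rw [hE, Affine.equation_iff]
    simp only [WeierstrassCurve.toAffine, c46Curve, hesseH, hesseT, hx₀, hy₀]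
    linear_combination (ι u' ^ 3 - ι v' ^ 3) ^ 2 * hσ'
  have hn := (Affine.equation_iff_nonsingular_of_Δ_ne_zero hΔE).1 heq
  set R : E.Point := .some x₀ y₀ hn
  have hR3 : 3 • R = 0 := by
    have e : R + R = -R := by
      simp only [R, Affine.Point.neg_some]
      refine doubling_aux h2K hΔE hn ((Affine.nonsingular_neg _ _).2 hn) ?_ ?_
      · simp only [hesseH, hx₀, hy₀]
        linear_combination (-108 * ι u' ^ 2 * (ι u' ^ 3 - ι v' ^ 3) ^ 2) * hσ'
      · simp only [Affine.negY, c46Curve]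
        ring
    rw [show 3 • R = R + R + R by abel, e]
    exact neg_add_cancel R
  have hq0 : (0 : Ω) ^ q = 0 := zero_pow Fintype.card_ne_zero
  have e0 := specialise E hfix _ (hdisc hab) hq0 (hint 0) hred0 (n := 3) h3Ω hR3
  have e1 := specialise E hfix _ (hdisc hC) (one_pow q) (hint 1) hred1 (n := 3) h3Ω hR3
  set S := Local.conjPoint E Φ hfix R with hS
  have hS3 : (3 : ℤ) • S = 0 := by
    rw [show ((3 : ℤ) • S) = 3 • S from natCast_zsmul S 3, hS, ← map_nsmul, hR3, map_zero]
  have hsub : ((c46Curve C₄ C₆).traceOfFrobenius - (c46Curve a b).traceOfFrobenius) • S = 0 := by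
    rw [sub_zsmul]
    calc (c46Curve C₄ C₆).traceOfFrobenius • S - (c46Curve a b).traceOfFrobenius • S
        = (Local.conjPoint E Φ hfix S - (c46Curve a b).traceOfFrobenius • S + (q : ℤ) • R)
          - (Local.conjPoint E Φ hfix S - (c46Curve C₄ C₆).traceOfFrobenius • S + (q : ℤ) • R) := by
          abel
      _ = 0 := by rw [e0, e1, sub_zero]
  by_contra hdvd
  obtain ⟨x, y, hxy⟩ :=
    (Prime.coprime_iff_not_dvd (Nat.prime_iff_prime_int.1 Nat.prime_three)).2 hdvd
  have : S = 0 := by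
    have h := congrArg (fun z : ℤ => z • S) hxy
    simp only [add_zsmul, mul_zsmul, one_zsmul] at h
    rw [show ((3 : ℕ) : ℤ) = (3 : ℤ) from rfl, hS3, hsub, zsmul_zero x, zsmul_zero y, add_zero] at h
    exact h.symm
  exact Affine.Point.some_ne_zero _ this

end FermatAgent.Switch.Hesse
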